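/-
helper93 (P-CFT / KD-3, row 505): valuations versus `FractionalIdeal.count`, and the `n`-th root
of a fractional ideal all of whose exponents are divisible by `n`.  Mathlib only.
-/
import Mathlib

set_option autoImplicit false

noncomputable section

namespace Fermat.Agent.H93.Selmer

open IsDedekindDomain FractionalIdeal WithZero
open scoped nonZeroDivisors

section Dedekind

variable {R : Type*} [CommRing R] [IsDedekindDomain R] {K : Type*} [Field K] [Algebra R K]
  [IsFractionRing R K]

/-- `count` of a principal integral ideal is minus the exponent of the valuation. -/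
theorem intValuation_eq_exp_neg_count (v : HeightOneSpectrum R) {r : R} (hr : r ≠ 0) :
    v.intValuation r
      = exp (-(count K v (spanSingleton R⁰ (algebraMap R K r)))) := by
  have hspan : Ideal.span {r} ≠ (0 : Ideal R) := by
    rw [Ne, Ideal.zero_eq_bot, Ideal.span_singleton_eq_bot]
    exact hr
  rw [v.intValuation_if_neg hr, ← coeIdeal_span_singleton, count_coe K v hspan]

/-- The valuation of `x ≠ 0` is `exp (- count_v (x))`. -/
theorem valuation_eq_exp_neg_count (v : HeightOneSpectrum R) {x : K} (hx : x ≠ 0) :
    v.valuation K x = exp (-(count K v (spanSingleton R⁰ x))) := by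
  obtain ⟨a, b, hb, rfl⟩ := IsFractionRing.div_surjective (A := R) x
  have hb0 : b ≠ 0 := nonZeroDivisors.ne_zero hb
  have hbK : algebraMap R K b ≠ 0 := by
    rwa [Ne, IsFractionRing.to_map_eq_zero_iff]
  have ha0 : a ≠ 0 := by
    rintro rfl
    simp at hx
  have haK : algebraMap R K a ≠ 0 := by
    rwa [Ne, IsFractionRing.to_map_eq_zero_iff]
  have h1 : spanSingleton R⁰ (algebraMap R K a / algebraMap R K b)
      = spanSingleton R⁰ (algebraMap R K a) * (spanSingleton R⁰ (algebraMap R K b))⁻¹ := by
    rw [spanSingleton_inv, spanSingleton_mul_spanSingleton, div_eq_mul_inv]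
  have hA : spanSingleton R⁰ (algebraMap R K a) ≠ 0 := by
    rwa [Ne, spanSingleton_eq_zero_iff]
  have hB : spanSingleton R⁰ (algebraMap R K b) ≠ 0 := by
    rwa [Ne, spanSingleton_eq_zero_iff]
  rw [map_div₀, v.valuation_of_algebraMap, v.valuation_of_algebraMap,
    intValuation_eq_exp_neg_count (K := K) v ha0, intValuation_eq_exp_neg_count (K := K) v hb0,
    h1, count_mul K v hA (inv_ne_zero hB), count_inv, ← exp_sub]
  congr 1
  ring

/-- The additive valuation of a unit of `K` is minus the `count` of its principal ideal. -/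
theorem toAdd_valuationOfNeZero (v : HeightOneSpectrum R) (x : Kˣ) :
    Multiplicative.toAdd (v.valuationOfNeZero x) = -(count K v (spanSingleton R⁰ (x : K))) := by
  have h := v.valuationOfNeZero_eq x
  rw [valuation_eq_exp_neg_count v x.ne_zero] at h
  have h2 : (v.valuationOfNeZero x : ℤᵐ⁰)
      = exp (Multiplicative.toAdd (v.valuationOfNeZero x)) := rfl
  rw [h2, exp_inj] at h
  exact h

/-- The invertible fractional ideal attached to a prime. -/
def primeUnit (K : Type*) [Field K] [Algebra R K] [IsFractionRing R K]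
    (v : HeightOneSpectrum R) : (FractionalIdeal R⁰ K)ˣ :=
  Units.mk0 (v.asIdeal : FractionalIdeal R⁰ K) (coeIdeal_ne_zero.mpr v.ne_bot)

@[simp]
theorem primeUnit_val (v : HeightOneSpectrum R) :
    ((primeUnit K v : (FractionalIdeal R⁰ K)ˣ) : FractionalIdeal R⁰ K) = v.asIdeal := rfl

/-- The `n`-th root of a fractional ideal (meaningful when all exponents are divisible by `n`). -/
def rootIdeal (n : ℕ) (I : FractionalIdeal R⁰ K) : (FractionalIdeal R⁰ K)ˣ :=
  ∏ᶠ v : HeightOneSpectrum R, primeUnit K v ^ (count K v I / (n : ℤ))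

theorem rootIdeal_hasFiniteMulSupport (n : ℕ) (I : FractionalIdeal R⁰ K) :
    Function.HasFiniteMulSupport
      (fun v : HeightOneSpectrum R => primeUnit K v ^ (count K v I / (n : ℤ))) := by
  have h := finite_factors (K := K) I
  rw [Filter.eventually_cofinite] at h
  refine h.subset ?_
  intro v hv
  rw [Function.mem_mulSupport] at hv
  intro h0
  apply hv
  rw [h0, Int.zero_ediv, zpow_zero]

theorem rootIdeal_pow (n : ℕ) {I : FractionalIdeal R⁰ K} (hI : I ≠ 0)
    (h : ∀ v : HeightOneSpectrum R, (n : ℤ) ∣ count K v I) :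
    ((rootIdeal n I ^ n : (FractionalIdeal R⁰ K)ˣ) : FractionalIdeal R⁰ K) = I := by
  have hfin := rootIdeal_hasFiniteMulSupport (K := K) n I
  have hfin' : Function.HasFiniteMulSupport
      (fun v : HeightOneSpectrum R => (primeUnit K v ^ (count K v I / (n : ℤ))) ^ n) := by
    refine hfin.subset ?_
    intro v hv
    rw [Function.mem_mulSupport] at hv ⊢
    intro h1
    apply hv
    rw [h1, one_pow]
  rw [rootIdeal, finprod_pow hfin]
  have := MonoidHom.map_finprod (Units.coeHom (FractionalIdeal R⁰ K)) hfin'
  rw [Units.coeHom_apply] at this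
  rw [this]
  conv_rhs => rw [← finprod_heightOneSpectrum_factorization' K hI]
  refine finprod_congr fun v => ?_
  rw [Units.coeHom_apply, ← zpow_natCast, ← zpow_mul, Int.ediv_mul_cancel (h v), Units.val_zpow_eq_zpow_val,
    primeUnit_val]

end Dedekind

end Fermat.Agent.H93.Selmer
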