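/-
helper93 (P-CFT / KD-3, row 505): finiteness of the Selmer group
`{a ∈ Kˣ : n ∣ ord_v a for v ∉ T} / (Kˣ)ⁿ` of a number field
(`Fermat.Agent.H54.Cft.SelmerFiniteStatement`).

Route: `V_T → ∏_{v ∈ T} ℤ/n` has kernel `V_∅`; `V_∅ → Cl(K)`, `a ↦ [(a)^{1/n}]`, has kernel
`𝓞ˣ · (Kˣ)ⁿ`; `𝓞ˣ` is finitely generated.
-/
import Fermat.Agent.H93.Cft.SelmerCount
import Fermat.Agent.H54.Cft.KummerInterfaces

set_option autoImplicit false

noncomputable section

namespace Fermat.Agent.H93.Selmer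

open IsDedekindDomain NumberField FractionalIdeal
open scoped nonZeroDivisors

/-- Finite sets of representatives modulo `n`-th powers pass through maps with finite target. -/
theorem finModPow_of_map {G : Type*} [CommGroup G] (n : ℕ) {α : Type*} [Finite α]
    (H H' : Set G) (f : G → α)
    (hker : ∀ a ∈ H, ∀ b ∈ H, f a = f b → a * b⁻¹ ∈ H')
    (hH' : ∃ R' : Finset G, ∀ a ∈ H', ∃ r ∈ R', ∃ c : G, a = r * c ^ n) :
    ∃ R : Finset G, ∀ a ∈ H, ∃ r ∈ R, ∃ c : G, a = r * c ^ n := by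
  classical
  obtain ⟨R', hR'⟩ := hH'
  haveI := Fintype.ofFinite α
  let rep : α → G := fun y => if h : ∃ b ∈ H, f b = y then h.choose else 1
  refine ⟨(Finset.univ ×ˢ R').image (fun p => rep p.1 * p.2), fun a ha => ?_⟩
  have hex : ∃ b ∈ H, f b = f a := ⟨a, ha, rfl⟩
  have hrep : rep (f a) = hex.choose := dif_pos hex
  obtain ⟨hbH, hfb⟩ := hex.choose_spec
  obtain ⟨r', hr', c, hc⟩ := hR' _ (hker a ha _ hbH hfb.symm)
  refine ⟨rep (f a) * r', Finset.mem_image.mpr ⟨(f a, r'), by simp [hr'], rfl⟩, c, ?_⟩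
  rw [hrep, mul_assoc, ← hc, mul_comm a, mul_inv_cancel_left]

/-- A finitely generated commutative group is finite modulo `n`-th powers. -/
theorem fg_finModPow (U : Type*) [CommGroup U] [Group.FG U] (n : ℕ) (hn : 0 < n) :
    ∃ R : Finset U, ∀ u : U, ∃ r ∈ R, ∃ c : U, u = r * c ^ n := by
  classical
  let N : Subgroup U := (powMonoidHom n : U →* U).range
  have htors : IsMulTorsion (U ⧸ N) := by
    intro q
    induction q using QuotientGroup.induction_on with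
    | H u =>
      rw [isOfFinOrder_iff_pow_eq_one]
      refine ⟨n, hn, ?_⟩
      rw [← QuotientGroup.mk_pow, QuotientGroup.eq_one_iff]
      exact ⟨u, rfl⟩
  haveI : Finite (U ⧸ N) := CommGroup.finite_of_fg_isMulTorsion _ htors
  haveI := Fintype.ofFinite (U ⧸ N)
  refine ⟨Finset.univ.image (fun q : U ⧸ N => q.out), fun u => ?_⟩
  refine ⟨(QuotientGroup.mk u : U ⧸ N).out, Finset.mem_image.mpr ⟨_, Finset.mem_univ _, rfl⟩, ?_⟩
  have h : (QuotientGroup.mk ((QuotientGroup.mk u : U ⧸ N).out) : U ⧸ N) = QuotientGroup.mk u :=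
    QuotientGroup.out_eq' _
  rw [QuotientGroup.eq] at h
  obtain ⟨c, hc⟩ := h
  refine ⟨c, ?_⟩
  rw [powMonoidHom_apply] at hc
  rw [hc, mul_inv_cancel_left]

section NF

variable (K : Type) [Field K] [NumberField K]

/-- The units of `𝓞 K` times `n`-th powers. -/
def unitPowSet (n : ℕ) : Set Kˣ :=
  {x | ∃ (u : (𝓞 K)ˣ) (c : Kˣ), x = Units.map (algebraMap (𝓞 K) K : 𝓞 K →* K) u * c ^ n}

theorem unitPowSet_finModPow (n : ℕ) (hn : 0 < n) :
    ∃ R' : Finset Kˣ, ∀ a ∈ unitPowSet K n, ∃ r ∈ R', ∃ c : Kˣ, a = r * c ^ n := by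
  classical
  haveI : Group.FG (𝓞 K)ˣ := Group.fg_iff_monoid_fg.mpr inferInstance
  obtain ⟨R, hR⟩ := fg_finModPow (𝓞 K)ˣ n hn
  refine ⟨R.image (Units.map (algebraMap (𝓞 K) K : 𝓞 K →* K)), ?_⟩
  rintro a ⟨u, c, rfl⟩
  obtain ⟨r, hr, w, rfl⟩ := hR u
  refine ⟨_, Finset.mem_image.mpr ⟨r, hr, rfl⟩,
    Units.map (algebraMap (𝓞 K) K : 𝓞 K →* K) w * c, ?_⟩
  rw [map_mul, map_pow, mul_pow, mul_assoc]

/-- Everywhere `n`-divisible elements. -/
def everywhereDvdSet (n : ℕ) : Set Kˣ :=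
  {a | ∀ v : HeightOneSpectrum (𝓞 K), (n : ℤ) ∣ Multiplicative.toAdd (v.valuationOfNeZero a)}

/-- The class of the `n`-th root of the principal ideal `(a)`. -/
def rootClass (n : ℕ) (a : Kˣ) : ClassGroup (𝓞 K) :=
  ClassGroup.mk K (rootIdeal n (spanSingleton (𝓞 K)⁰ (a : K)))

theorem rootIdeal_pow_of_mem {n : ℕ} {a : Kˣ} (ha : a ∈ everywhereDvdSet K n) :
    ((rootIdeal n (spanSingleton (𝓞 K)⁰ (a : K)) ^ n : (FractionalIdeal (𝓞 K)⁰ K)ˣ) :
      FractionalIdeal (𝓞 K)⁰ K) = spanSingleton (𝓞 K)⁰ (a : K) := by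
  apply rootIdeal_pow
  · rw [Ne, spanSingleton_eq_zero_iff]
    exact a.ne_zero
  · intro v
    have h := ha v
    rw [toAdd_valuationOfNeZero] at h
    exact (Int.dvd_neg).mp h

theorem mul_inv_mem_unitPowSet {n : ℕ} {a b : Kˣ} (ha : a ∈ everywhereDvdSet K n)
    (hb : b ∈ everywhereDvdSet K n) (hab : rootClass K n a = rootClass K n b) :
    a * b⁻¹ ∈ unitPowSet K n := by
  set Ja := rootIdeal n (spanSingleton (𝓞 K)⁰ (a : K)) with hJa
  set Jb := rootIdeal n (spanSingleton (𝓞 K)⁰ (b : K)) with hJb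
  have h1 : ClassGroup.mk K (Ja * Jb⁻¹) = 1 := by
    rw [map_mul, map_inv, mul_inv_eq_one]
    exact hab
  rw [ClassGroup.mk_eq_one_iff] at h1
  have h2 := eq_spanSingleton_of_principal ((Ja * Jb⁻¹ : (FractionalIdeal (𝓞 K)⁰ K)ˣ) :
    FractionalIdeal (𝓞 K)⁰ K)
  set x : K := Submodule.IsPrincipal.generator
    (((Ja * Jb⁻¹ : (FractionalIdeal (𝓞 K)⁰ K)ˣ) : FractionalIdeal (𝓞 K)⁰ K) :
      Submodule (𝓞 K) K) with hx
  have hx0 : x ≠ 0 := by
    intro h0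
    rw [h0, spanSingleton_zero] at h2
    exact (Ja * Jb⁻¹).ne_zero h2
  -- take `n`-th powers
  have h3 : spanSingleton (𝓞 K)⁰ ((a : K) * (b : K)⁻¹) = spanSingleton (𝓞 K)⁰ (x ^ n) := by
    rw [← spanSingleton_pow, ← h2, ← Units.val_pow_eq_pow_val, mul_pow, inv_pow, Units.val_mul,
      Units.val_inv_eq_inv_val, rootIdeal_pow_of_mem K ha, rootIdeal_pow_of_mem K hb,
      spanSingleton_inv, spanSingleton_mul_spanSingleton]
  rw [spanSingleton_eq_spanSingleton] at h3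
  obtain ⟨z, hz⟩ := h3
  refine ⟨z⁻¹, Units.mk0 x hx0, Units.ext ?_⟩
  have hz' : algebraMap (𝓞 K) K (z : 𝓞 K) * ((a : K) * (b : K)⁻¹) = x ^ n := by
    rw [← hz, Units.smul_def, Algebra.smul_def]
  rw [Units.val_mul, Units.val_mul, Units.val_inv_eq_inv_val, Units.val_pow_eq_pow_val,
    Units.val_mk0, Units.coe_map]
  have hzK : algebraMap (𝓞 K) K (z : 𝓞 K) ≠ 0 := by
    rw [Ne, IsFractionRing.to_map_eq_zero_iff]
    exact z.ne_zero
  have : algebraMap (𝓞 K) K ((z⁻¹ : (𝓞 K)ˣ) : 𝓞 K) = (algebraMap (𝓞 K) K (z : 𝓞 K))⁻¹ := by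
    apply eq_inv_of_mul_eq_one_left
    rw [← map_mul, ← Units.val_mul, inv_mul_cancel, Units.val_one, map_one]
  show _ = algebraMap (𝓞 K) K ((z⁻¹ : (𝓞 K)ˣ) : 𝓞 K) * _
  rw [this, ← hz']
  field_simp

theorem everywhereDvdSet_finModPow (n : ℕ) (hn : 0 < n) :
    ∃ R : Finset Kˣ, ∀ a ∈ everywhereDvdSet K n, ∃ r ∈ R, ∃ c : Kˣ, a = r * c ^ n :=
  finModPow_of_map n (everywhereDvdSet K n) (unitPowSet K n) (rootClass K n)
    (fun _ ha _ hb hab => mul_inv_mem_unitPowSet K ha hb hab) (unitPowSet_finModPow K n hn)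

end NF

/-- **KD-3**: finiteness of the Selmer group of a number field. -/
theorem selmerFinite : Fermat.Agent.H54.Cft.SelmerFiniteStatement := by
  intro K _ _ T n hn
  classical
  haveI : NeZero n := ⟨hn.ne'⟩
  let f : Kˣ → ({v // v ∈ T} → ZMod n) := fun a v =>
    ((Multiplicative.toAdd ((v : HeightOneSpectrum (𝓞 K)).valuationOfNeZero a) : ℤ) : ZMod n)
  refine finModPow_of_map n
    {a : Kˣ | ∀ v : HeightOneSpectrum (𝓞 K), v ∉ T → Fermat.Agent.H54.Cft.OrdDvdAt n v a}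
    (everywhereDvdSet K n) f ?_ (everywhereDvdSet_finModPow K n hn)
  intro a ha b hb hab v
  rw [map_mul, map_inv, toAdd_mul, toAdd_inv, ← sub_eq_add_neg]
  by_cases hv : v ∈ T
  · have h := congrFun hab ⟨v, hv⟩
    have h' : ((Multiplicative.toAdd (v.valuationOfNeZero a) : ℤ) : ZMod n)
        = ((Multiplicative.toAdd (v.valuationOfNeZero b) : ℤ) : ZMod n) := h
    rw [ZMod.intCast_eq_intCast_iff_dvd_sub] at h'
    have := (Int.dvd_neg).mpr h'
    rwa [neg_sub] at this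
  · exact dvd_sub (ha v hv) (hb v hv)

end Fermat.Agent.H93.Selmer
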